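import Fermat.Agent.PIC.Final
import Mathlib.RingTheory.Ideal.AssociatedPrime.Localization
import Mathlib.RingTheory.Polynomial.ScaleRoots

/-!
# Residual eigensystems occur in the `p`-torsion of the Jacobian
-/

set_option autoImplicit false

noncomputable section

namespace Fermat.Agent.Emb1

open ModularCurve ModularCurve.Period CongruenceSubgroup CuspForm ModularFormClass
open Fermat.Agent.HeckeHom Fermat.Agent.Tate Fermat.Agent.PIC
open Fermat.Agent.TorsCmp Fermat.Agent.GalJ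

/-- a maximal ideal containing the annihilator of a finite module has nonzero annihilated
elements -/
theorem exists_of_annihilator_le {T : Type*} [CommRing T] [IsNoetherianRing T] {M : Type*}
    [AddCommGroup M] [Module T M] [Finite M] (I : Ideal T) [hI : I.IsMaximal]
    (h : ∀ t : T, (∀ m : M, t • m = 0) → t ∈ I) : ∃ c : M, c ≠ 0 ∧ ∀ t ∈ I, t • c = 0 := by
  have hann : Module.annihilator T M ≤ I := fun t ht => h t (Module.mem_annihilator.1 ht)
  have hfin : Finite (T ⧸ Module.annihilator T M) := by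
    have hf : Finite (M → M) := Pi.finite
    refine Finite.of_injective (β := M → M)
      (fun q m => (Ideal.Quotient.lift (Module.annihilator T M) (Module.toAddMonoidEnd T M)
        (fun t ht => AddMonoidHom.ext fun m => Module.mem_annihilator.1 ht m) q) m) ?_
    intro x y hxy
    obtain ⟨x, rfl⟩ := Ideal.Quotient.mk_surjective x
    obtain ⟨y, rfl⟩ := Ideal.Quotient.mk_surjective y
    rw [Ideal.Quotient.eq, Module.mem_annihilator]
    intro m
    have h1 : x • m = y • m := congrFun hxy m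
    rw [sub_smul, h1, sub_self]
  have hmin : I ∈ (Module.annihilator T M).minimalPrimes := by
    refine ⟨⟨hI.isPrime, hann⟩, ?_⟩
    rintro P ⟨hP, hP1⟩ hPI
    have hP' : P.IsPrime := hP
    have hdom : IsDomain (T ⧸ P) := Ideal.Quotient.isDomain P
    have hfinP : Finite (T ⧸ P) :=
      Finite.of_surjective (Ideal.Quotient.factor hP1) (Ideal.Quotient.factor_surjective hP1)
    have hPm : P.IsMaximal := Ideal.Quotient.maximal_of_isField P (Finite.isField_of_domain (T ⧸ P))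
    rw [hPm.eq_of_le hI.ne_top hPI]
  have hfM : Module.Finite T M := Module.Finite.of_finite
  obtain ⟨-, c, hc⟩ := isAssociatedPrime_iff.1
    (Module.associatedPrimes.minimalPrimes_annihilator_subset_associatedPrimes T M hmin)
  have hc' : ∀ t, t ∈ I ↔ t • c = 0 := fun t => by
    rw [hc, Submodule.mem_colon_singleton, Submodule.mem_bot]
  refine ⟨c, ?_, fun t ht => (hc' t).1 ht⟩
  rintro rfl
  exact hI.ne_top (Ideal.eq_top_of_isUnit_mem _ ((hc' 1).2 (smul_zero _)) isUnit_one)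

variable {N : ℕ} [NeZero N] {S : Set ℕ} (hS : ∀ q : ℕ, q.Prime → q ∣ N → q ∈ S) {p : ℕ}
  [hp : Fact p.Prime]

/-- an element of the Hecke algebra killing `J[p]` is nilpotent modulo `p` -/
theorem exists_poly_of_kill {x : FreeAlgebra ℤ (Idx N S)}
    (hx : ∀ c : JZero N, p • c = 0 → actJ N S x c = 0) :
    ∃ P : Polynomial ℤ, P.Monic ∧ Polynomial.aeval (toHecke hS x) (P.scaleRoots (p : ℤ)) = 0 := by
  -- divisibility of the action on the integral lattice
  have h1 : ∀ φ : parabolicHoms ℤ (Gamma0 N) ℤ, ∀ g : Additive (Gamma0 N),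
      (p : ℤ) ∣ (actPar N S ℤ ℤ x φ : Additive (Gamma0 N) →+ ℤ) g := by
    intro φ g
    let φ' : parabolicHoms ℤ_[p] (Gamma0 N) ℤ_[p] :=
      ⟨(Int.castAddHom ℤ_[p]).comp (φ : Additive (Gamma0 N) →+ ℤ), fun γ hγ => by
        rw [AddMonoidHom.comp_apply, φ.2 γ hγ, map_zero]⟩
    have h2 := actPar_natural (R := ℤ) (R' := ℤ_[p]) (Int.castAddHom ℤ_[p]) x φ φ' rfl
    have h3 : (prJ N p 1 (actPar N S ℤ_[p] ℤ_[p] x φ') : JZero N) = 0 := by
      rw [prJ_actPar]
      apply hx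
      have := (mem_tor p).1 (prJ N p 1 φ').2
      rwa [pow_one] at this
    have h4 : prJ N p 1 (actPar N S ℤ_[p] ℤ_[p] x φ') = 0 := Subtype.ext h3
    have h5 := (pr_eq_iff (comparisonJ N p) _ (comparisonJ_mem_iff N p) 1 _ _).1 h4
    rw [map_zero] at h5
    have h6 := (congrArg (fun f : Additive (Gamma0 N) →+ ZMod (p ^ 1) => f g) h5).symm
    have h7 : red 1 (actPar N S ℤ_[p] ℤ_[p] x φ' : Additive (Gamma0 N) →+ ℤ_[p]) g = 0 := h6
    rw [h2, red_apply, AddMonoidHom.comp_apply] at h7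
    have h8 : PadicInt.toZModPow 1
        (((actPar N S ℤ ℤ x φ : Additive (Gamma0 N) →+ ℤ) g : ℤ) : ℤ_[p]) = 0 := h7
    rw [map_intCast, ZMod.intCast_zmod_eq_zero_iff_dvd, pow_one] at h8
    exact h8
  have hp0 : (p : ℤ) ≠ 0 := by exact_mod_cast hp.out.ne_zero
  -- the quotient
  let q : parabolicHoms ℤ (Gamma0 N) ℤ → parabolicHoms ℤ (Gamma0 N) ℤ := fun φ =>
    ⟨{ toFun := fun g => (actPar N S ℤ ℤ x φ : Additive (Gamma0 N) →+ ℤ) g / p
       map_zero' := by rw [map_zero, Int.zero_ediv]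
       map_add' := fun a b => by rw [map_add, Int.add_ediv_of_dvd_left (h1 φ a)] },
      fun γ hγ => by
        change (actPar N S ℤ ℤ x φ : Additive (Gamma0 N) →+ ℤ) (Additive.ofMul γ) / p = 0
        rw [(actPar N S ℤ ℤ x φ).2 γ hγ, Int.zero_ediv]⟩
  have hq : ∀ φ, (p : ℤ) • q φ = actPar N S ℤ ℤ x φ := by
    intro φ
    apply Subtype.ext
    refine AddMonoidHom.ext fun g => ?_
    change (p : ℤ) • ((actPar N S ℤ ℤ x φ : Additive (Gamma0 N) →+ ℤ) g / p) = _
    rw [smul_eq_mul, Int.mul_ediv_cancel' (h1 φ g)]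
  have hfree : Module.Free ℤ (parabolicHoms ℤ (Gamma0 N) ℤ) := inferInstance
  have hcancel : ∀ a b : parabolicHoms ℤ (Gamma0 N) ℤ, (p : ℤ) • a = (p : ℤ) • b → a = b := by
    intro a b hab
    have h2 : (p : ℤ) • (a - b) = 0 := by rw [smul_sub, hab, sub_self]
    exact sub_eq_zero.1 ((smul_eq_zero.1 h2).resolve_left hp0)
  let u : Module.End ℤ (parabolicHoms ℤ (Gamma0 N) ℤ) :=
    { toFun := q
      map_add' := fun a b => hcancel _ _ (by rw [smul_add, hq, hq, hq, map_add])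
      map_smul' := fun c a => hcancel _ _ (by
        rw [hq, map_smul, RingHom.id_apply, smul_comm, hq]) }
  have hu : (algebraMap ℤ (Module.End ℤ (parabolicHoms ℤ (Gamma0 N) ℤ)) (p : ℤ)) * u =
      actPar N S ℤ ℤ x := by
    refine LinearMap.ext fun φ => ?_
    rw [Module.End.mul_apply, Module.algebraMap_end_apply]
    exact hq φ
  obtain ⟨P, hP, hPu⟩ := (Algebra.IsIntegral.isIntegral (R := ℤ) u)
  refine ⟨P, hP, ?_⟩
  have h3 : Polynomial.aeval (actPar N S ℤ ℤ x) (P.scaleRoots (p : ℤ)) = 0 := by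
    rw [← hu]
    exact Polynomial.scaleRoots_aeval_eq_zero hPu
  have h4 : Polynomial.aeval (actPar N S ℤ ℤ x) (P.scaleRoots (p : ℤ)) =
      actPar N S ℤ ℤ (Polynomial.aeval x (P.scaleRoots (p : ℤ))) :=
    Polynomial.aeval_algHom_apply (actPar N S ℤ ℤ) x _
  rw [h4] at h3
  rw [Polynomial.aeval_algHom_apply]
  exact (toHecke_eq_zero_iff (es N) hS ℤ _).2 h3

/-- a field valued character of characteristic `p` kills the elements killing `J[p]` -/
theorem char_eq_zero_of_kill {k : Type*} [Field k] (hk : (p : k) = 0)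
    (χ : CuspForm.heckeAlgebra N 2 S →+* k) {x : FreeAlgebra ℤ (Idx N S)}
    (hx : ∀ c : JZero N, p • c = 0 → actJ N S x c = 0) : χ (toHecke hS x) = 0 := by
  obtain ⟨P, hP, hPx⟩ := exists_poly_of_kill hS hx
  have h1 := congrArg χ hPx
  rw [map_zero, Polynomial.aeval_def, Polynomial.hom_eval₂] at h1
  have h2 : (χ.comp (algebraMap ℤ (CuspForm.heckeAlgebra N 2 S))) = Int.castRingHom k :=
    RingHom.ext_int _ _
  rw [h2, Polynomial.eval₂_eq_sum_range, Polynomial.natDegree_scaleRoots] at h1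
  rw [Finset.sum_range_succ, Finset.sum_eq_zero] at h1
  · rw [Polynomial.coeff_scaleRoots, Nat.sub_self, pow_zero, mul_one,
      Polynomial.Monic.coeff_natDegree hP, map_one, one_mul, zero_add] at h1
    exact pow_eq_zero_iff (by
      rintro h3
      rw [h3, pow_zero] at h1
      exact one_ne_zero h1) |>.1 h1
  · intro i hi
    rw [Finset.mem_range] at hi
    rw [Polynomial.coeff_scaleRoots, map_mul, map_pow]
    have h3 : (Int.castRingHom k) (p : ℤ) = 0 := by
      rw [map_natCast]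
      exact hk
    rw [h3, zero_pow (by omega), mul_zero, zero_mul]

/-- **residual characters of the Hecke algebra occur in `J₀(N)[p]`** -/
theorem exists_class_of_char {k : Type*} [Field k] (hk : (p : k) = 0)
    (χ : CuspForm.heckeAlgebra N 2 S →+* k) : ∃ c : JZero N, c ≠ 0 ∧ p • c = 0 ∧
      ∀ x : FreeAlgebra ℤ (Idx N S), χ (toHecke hS x) = 0 → actJ N S x c = 0 := by
  -- the action on the `p`-torsion
  let M : Submodule ℤ (JZero N) := Submodule.torsionBy ℤ (JZero N) (p : ℤ)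
  have hM : ∀ c : JZero N, c ∈ M ↔ p • c = 0 := fun c => by
    rw [Submodule.mem_torsionBy_iff, natCast_zsmul]
  have hMfin : Finite M := by
    obtain ⟨n, g, hg⟩ := exists_evalLin_injective (Gamma0 N)
    have hp1 : NeZero (p ^ 1) := ⟨pow_ne_zero 1 hp.out.ne_zero⟩
    have h1 : Function.Injective
        (fun x : tor p (JZero N) 1 => evalLin ℤ (ZMod (p ^ 1)) g ((comparisonJ N p).e 1 x)) :=
      (hg ℤ (ZMod (p ^ 1))).comp ((comparisonJ N p).injective 1)
    have h2 : Finite (tor p (JZero N) 1) := Finite.of_injective _ h1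
    refine Finite.of_injective (fun x : M => (⟨x.1, (mem_tor p).2 (by
      rw [pow_one]; exact (hM _).1 x.2)⟩ : tor p (JZero N) 1)) fun x y h => ?_
    exact Subtype.ext (congrArg (fun z : tor p (JZero N) 1 => (z : JZero N)) h)
  have hmap : ∀ (x : FreeAlgebra ℤ (Idx N S)), ∀ c ∈ M, actJ N S x c ∈ M := fun x c hc => by
    rw [hM] at hc ⊢
    rw [← map_nsmul, hc, map_zero]
  let g : FreeAlgebra ℤ (Idx N S) →+* Module.End ℤ M :=
    { toFun := fun x => (actJ N S x).restrict (hmap x)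
      map_one' := by
        refine LinearMap.ext fun c => Subtype.ext ?_
        change actJ N S 1 c = c
        rw [map_one]
        rfl
      map_zero' := by
        refine LinearMap.ext fun c => Subtype.ext ?_
        change actJ N S 0 c = 0
        rw [map_zero]
        rfl
      map_mul' := fun x y => by
        refine LinearMap.ext fun c => Subtype.ext ?_
        change actJ N S (x * y) c = actJ N S x (actJ N S y c)
        rw [map_mul]
        rfl
      map_add' := fun x y => by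
        refine LinearMap.ext fun c => Subtype.ext ?_
        change actJ N S (x + y) c = actJ N S x c + actJ N S y c
        rw [map_add]
        rfl }
  let f : FreeAlgebra ℤ (Idx N S) →+* CuspForm.heckeAlgebra N 2 S := (toHecke hS).toRingHom
  have hker : RingHom.ker f ≤ RingHom.ker g := by
    intro x hx
    have h1 : toHecke hS x = 0 := hx
    refine LinearMap.ext fun c => Subtype.ext ?_
    exact actJ_eq_zero N S p hS h1 (n := 1) (by rw [pow_one]; exact (hM _).1 c.2)
  choose s hs using (toHecke_surjective hS)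
  have hs' : Function.RightInverse s f := hs
  let ρ : CuspForm.heckeAlgebra N 2 S →+* Module.End ℤ M :=
    RingHom.liftOfRightInverse f s hs' ⟨g, hker⟩
  have hρ : ∀ x (c : M), (ρ (toHecke hS x) c : JZero N) = actJ N S x c := by
    intro x c
    have h1 : ρ (f x) = g x := RingHom.liftOfRightInverse_comp_apply f s hs' ⟨g, hker⟩ x
    have h2 : ρ (toHecke hS x) = g x := h1
    rw [h2]
    rfl
  let _ : Module (CuspForm.heckeAlgebra N 2 S) M := Module.compHom M ρ
  have hsm : ∀ (t : CuspForm.heckeAlgebra N 2 S) (c : M), t • c = ρ t c := fun _ _ => rfl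
  have hfin : Module.Finite ℤ (CuspForm.heckeAlgebra N 2 S) :=
    Fermat.Agent.Period.finite_heckeAlgebra N 2 S
  have hnoeth : IsNoetherianRing (CuspForm.heckeAlgebra N 2 S) := IsNoetherianRing.of_finite ℤ _
  have hint : Algebra.IsIntegral ℤ (CuspForm.heckeAlgebra N 2 S) := Algebra.IsIntegral.of_finite ℤ _
  have hP : (RingHom.ker χ).IsPrime := RingHom.ker_isPrime χ
  have hmax : (RingHom.ker χ).IsMaximal := by
    refine Ideal.isMaximal_of_isIntegral_of_isMaximal_comap (R := ℤ) _ ?_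
    have h1 : Ideal.span {(p : ℤ)} ≤
        Ideal.comap (algebraMap ℤ (CuspForm.heckeAlgebra N 2 S)) (RingHom.ker χ) := by
      rw [Ideal.span_singleton_le_iff_mem, Ideal.mem_comap, RingHom.mem_ker, map_natCast,
        map_natCast]
      exact hk
    have h2 : (Ideal.span {(p : ℤ)}).IsMaximal :=
      PrincipalIdealRing.isMaximal_of_irreducible
        (Nat.prime_iff_prime_int.mp hp.out).irreducible
    have h3 : Ideal.comap (algebraMap ℤ (CuspForm.heckeAlgebra N 2 S)) (RingHom.ker χ) ≠ ⊤ :=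
      Ideal.comap_ne_top _ hP.ne_top
    rw [← h2.eq_of_le h3 h1]
    exact h2
  obtain ⟨c, hc0, hc⟩ := exists_of_annihilator_le (M := M) (RingHom.ker χ) (by
    intro t ht
    obtain ⟨x, rfl⟩ := toHecke_surjective hS t
    rw [RingHom.mem_ker]
    refine char_eq_zero_of_kill hS hk χ fun c hc => ?_
    have h1 := congrArg Subtype.val (ht ⟨c, (hM c).2 hc⟩)
    rw [hsm, hρ] at h1
    exact h1)
  refine ⟨c, fun h => hc0 (Subtype.ext h), (hM _).1 c.2, fun x hx => ?_⟩
  have h1 := congrArg Subtype.val (hc _ (RingHom.mem_ker.2 hx))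
  rw [hsm, hρ] at h1
  exact h1

include hS in
/-- **residual characters with integral values occur in `J₀(N)[p]`** -/
theorem exists_class_of_char_int {k : Type*} [Field k] (hk : (p : k) = 0)
    (χ : CuspForm.heckeAlgebra N 2 S →+* k) (a : ℕ → ℤ)
    (ha : ∀ (ℓ : ℕ) (hℓ : ℓ.Prime) (hℓN : ¬ ℓ ∣ N) (hℓS : ℓ ∉ S),
      χ (CuspForm.heckeAlgebra.T hℓ hℓN hℓS) = a ℓ) :
    ∃ c : JZero N, c ≠ 0 ∧ p • c = 0 ∧ ∀ (ℓ : ℕ) (hℓ : ℓ.Prime), ¬ ℓ ∣ N → ℓ ∉ S →
      heckeOperatorBar N ⟨ℓ, hℓ⟩ c = a ℓ • c := by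
  obtain ⟨c, hc0, hpc, hc⟩ := exists_class_of_char hS hk χ
  refine ⟨c, hc0, hpc, fun ℓ hℓ hℓN hℓS => ?_⟩
  have h1 := hc (FreeAlgebra.ι ℤ ⟨ℓ, hℓ, hℓN, hℓS⟩ - algebraMap ℤ _ (a ℓ)) (by
    rw [map_sub, map_sub, toHecke_ι hS hℓ hℓN hℓS, ha, AlgHom.commutes, eq_intCast, map_intCast,
      sub_self])
  rw [map_sub, LinearMap.sub_apply, actJ_ι, AlgHom.commutes, end_intCast_apply, sub_eq_zero] at h1
  exact h1

include hS in
/-- **residual eigensystems of eigenforms occur in `J₀(N)[p]`** (converse of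
`PIC.exists_eigenform_of_classJ`). -/
theorem exists_class_of_eigenform (f : CuspForm (Gamma0 N) 2) (hf : f.IsNormalizedEigenform)
    (𝔪 : Ideal (integralClosure ℤ ℂ)) (hm : 𝔪.IsMaximal) (hpm : (p : integralClosure ℤ ℂ) ∈ 𝔪)
    (a : ℕ → ℤ) (h : ∀ ℓ : ℕ, ℓ.Prime → ¬ ℓ ∣ N → ℓ ∉ S →
      ∃ b : integralClosure ℤ ℂ, (b : ℂ) = qCoeff f ℓ ∧
        b - ((a ℓ : ℤ) : integralClosure ℤ ℂ) ∈ 𝔪) :
    ∃ c : JZero N, c ≠ 0 ∧ p • c = 0 ∧ ∀ (ℓ : ℕ) (hℓ : ℓ.Prime), ¬ ℓ ∣ N → ℓ ∉ S →
      heckeOperatorBar N ⟨ℓ, hℓ⟩ c = a ℓ • c := by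
  have hfin : Module.Finite ℤ (CuspForm.heckeAlgebra N 2 S) :=
    Fermat.Agent.Period.finite_heckeAlgebra N 2 S
  have hint : Algebra.IsIntegral ℤ (CuspForm.heckeAlgebra N 2 S) := Algebra.IsIntegral.of_finite ℤ _
  let ψ₀ : CuspForm.heckeAlgebra N 2 S →+* ℂ := Fermat.Agent.HGModule.eigenChar hf hS
  let ψ : CuspForm.heckeAlgebra N 2 S →+* integralClosure ℤ ℂ :=
    ψ₀.codRestrict (integralClosure ℤ ℂ).toSubring
      (fun t => (hint.isIntegral t).map ψ₀.toIntAlgHom)
  let _ : Field (integralClosure ℤ ℂ ⧸ 𝔪) := Ideal.Quotient.field 𝔪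
  let χ : CuspForm.heckeAlgebra N 2 S →+* (integralClosure ℤ ℂ ⧸ 𝔪) := (Ideal.Quotient.mk 𝔪).comp ψ
  have hk : (p : integralClosure ℤ ℂ ⧸ 𝔪) = 0 := by
    have := Ideal.Quotient.eq_zero_iff_mem.2 hpm
    rwa [map_natCast] at this
  refine exists_class_of_char_int hS hk χ a fun ℓ hℓ hℓN hℓS => ?_
  obtain ⟨b, hb, hb'⟩ := h ℓ hℓ hℓN hℓS
  have h1 : ψ (CuspForm.heckeAlgebra.T hℓ hℓN hℓS) = b := by
    apply Subtype.ext
    change ψ₀ (CuspForm.heckeAlgebra.T hℓ hℓN hℓS) = b
    rw [hb]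
    exact Fermat.Agent.HGModule.eigenChar_T hf hS hℓ hℓN hℓS
  change Ideal.Quotient.mk 𝔪 (ψ (CuspForm.heckeAlgebra.T hℓ hℓN hℓS)) = _
  rw [h1, ← map_intCast (Ideal.Quotient.mk 𝔪)]
  exact Ideal.Quotient.eq.2 hb'

end Fermat.Agent.Emb1
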